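import Fermat.Agent.S15.W.Interface
import Fermat.Agent.S44.Cover.Span

/-!
# S43 / KUM / Move : a moving lemma INSIDE the functions fixed by `Γ = Gal(ℚ̄ / K₀)`

`T` a finite `Γ`-stable set of places of `FF N`, `n : T → ℤ` a `Γ`-invariant function.  Then there is a `Γ`-fixed `κ ≠ 0` in `FF N` with
`ord_v κ = n v` for all `v ∈ T`.

Proof: `k₀` with the right orders (weak approximation); Galois descent (`S44.Cover.span_fixed`) for the `Γ`-stable space
`{f : ord_v f ≥ n v on T}` writes `k₀ = ∑ c_j f_j` with `Γ`-fixed `f_j` in the space; `κ = ∑ r ^ j f_j` for a suitable `r ∈ ℕ`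
(the leading coefficients at the `v ∈ T` are nonzero polynomials in `r`).
-/

set_option autoImplicit false
set_option linter.unusedSectionVars false

namespace Fermat.Agent.S43.KUM

open AlgebraicCurve ModularCurve Fermat.Agent.S26 Fermat.Agent.S37.Red Fermat.Agent.S15.W
open Fermat.Agent.ES Fermat.Agent.S44.Cover

/-- the semilinear automorphism of `FF N` attached to `g ∈ G_ℚ`. -/
noncomputable abbrev aG (N : ℕ) (g : GQ) : SemilinearAut Qb (FF N) :=
  arithmeticGalois (modularFunctionFieldFull N) g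

theorem aG_smul (N : ℕ) (g : GQ) (f : FF N) : aG N g • f = galF N g f := rfl

theorem ord_galF' (N : ℕ) (g : GQ) (v : Place Qb (FF N)) (f : FF N) :
    v.ord (galF N g f) = ((aG N g)⁻¹ • v).ord f := by
  have h1 := ord_galF N g ((aG N g)⁻¹ • v) f
  rwa [smul_inv_smul] at h1

theorem exists_inv_ord (N : ℕ) [NeZero N] (K₀ : IntermediateField ℚ Qb)
    (T : Finset (Place Qb (FF N))) (n : Place Qb (FF N) → ℤ)
    (hT : ∀ g : GQ, (∀ c ∈ K₀, g c = c) → ∀ v ∈ T,
      (aG N g)⁻¹ • v ∈ T ∧ n ((aG N g)⁻¹ • v) = n v) :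
    ∃ κ : FF N, κ ≠ 0 ∧ (∀ g : GQ, (∀ c ∈ K₀, g c = c) → galF N g κ = κ) ∧
      ∀ v ∈ T, v.ord κ = n v := by
  classical
  rcases T.eq_empty_or_nonempty with rfl | ⟨v₀, hv₀⟩
  · exact ⟨1, one_ne_zero, fun g _ => map_one _, by simp⟩
  obtain ⟨k₀, hk₀, hk₀T⟩ := exists_ord_eq T n
  -- normalising functions
  have hex : ∀ v : Place Qb (FF N), ∃ u : FF N, u ≠ 0 ∧ v.ord u = - n v := fun v => by
    obtain ⟨u, hu0, hu⟩ := exists_ord_eq ({v} : Finset (Place Qb (FF N))) (fun w => - n w)
    exact ⟨u, hu0, hu v (Finset.mem_singleton_self v)⟩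
  choose u hu0 hu using hex
  have hreg : ∀ (v : Place Qb (FF N)) (f : FF N), Reg v (f * u v) ↔ (f = 0 ∨ n v ≤ v.ord f) := by
    intro v f
    rcases eq_or_ne f 0 with rfl | hf
    · simp [reg_zero]
    · rw [reg_iff_ord, v.ord_mul hf (hu0 v), hu]
      constructor
      · intro h; right; linarith
      · rintro (h | h)
        · exact absurd h hf
        · linarith
  -- the stable space
  let V : LL → Prop := fun x => ∃ f : FF N, (f : LL) = x ∧ ∀ v ∈ T, Reg v (f * u v)
  have hV : Stable K₀ V :=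
    { zero := ⟨0, rfl, fun v _ => by rw [zero_mul]; exact reg_zero v⟩
      add := by
        rintro _ _ ⟨f, rfl, hf⟩ ⟨f', rfl, hf'⟩
        exact ⟨f + f', rfl, fun v hv => by rw [add_mul]; exact (hf v hv).add v (hf' v hv)⟩
      smul := by
        rintro c _ ⟨f, rfl, hf⟩
        refine ⟨algebraMap Qb (FF N) c * f, ?_, fun v hv => ?_⟩
        · rw [← coe_algebraMap_FF (N := N)]; rfl
        · rw [mul_assoc]; exact (reg_algebraMap v c).mul v (hf v hv)
      gal := by
        rintro g hg _ ⟨f, rfl, hf⟩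
        refine ⟨galF N g f, rfl, fun v hv => ?_⟩
        rw [hreg]
        rcases eq_or_ne f 0 with rfl | hf0
        · left; exact map_zero _
        · right
          obtain ⟨h1, h2⟩ := hT g hg v hv
          rw [ord_galF', ← h2]
          exact ((hreg _ f).1 (hf _ h1)).resolve_left hf0 }
  have hk₀V : V (k₀ : LL) := ⟨k₀, rfl, fun v hv => (hreg v k₀).2 (Or.inr (hk₀T v hv).ge)⟩
  obtain ⟨m, c, x, hx, hsum⟩ := span_fixed hV (k₀ : LL) hk₀V (finCoeff_FF N k₀)
  choose f hfx hfT using hx
  have hfix : ∀ j, ∀ g : GQ, (∀ c ∈ K₀, g c = c) → galF N g (f j) = f j := by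
    intro j g hg
    apply Subtype.ext
    rw [coe_galF, hfx]
    exact gact_bc K₀ g hg (x j)
  have hk₀sum : k₀ = ∑ j, algebraMap Qb (FF N) (c j) * f j := by
    apply Subtype.ext
    rw [hsum]
    have : (((∑ j, algebraMap Qb (FF N) (c j) * f j : FF N)) : LL)
        = ∑ j, ((algebraMap Qb (FF N) (c j) * f j : FF N) : LL) := by
      exact map_sum (modularFunctionFieldBar N).val _ _
    rw [this]
    refine Finset.sum_congr rfl fun j _ => ?_
    rw [← hfx j, ← coe_algebraMap_FF (N := N)]
    rfl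
  -- the leading coefficients
  let lam : Place Qb (FF N) → FF N → Qb := fun v h => val v (h * u v)
  let pol : Place Qb (FF N) → Polynomial Qb := fun v =>
    ∑ j : Fin m, Polynomial.monomial (j : ℕ) (lam v (f j))
  have hpol : ∀ v ∈ T, pol v ≠ 0 := by
    intro v hv h0
    have h1 : ∀ j : Fin m, lam v (f j) = 0 := by
      intro j
      have h2 := congrArg (fun P : Polynomial Qb => P.coeff (j : ℕ)) h0
      simp only [pol, Polynomial.finset_sum_coeff, Polynomial.coeff_monomial,
        Polynomial.coeff_zero] at h2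
      rw [Finset.sum_eq_single j] at h2
      · simpa using h2
      · intro i _ hij
        rw [if_neg (fun h => hij (Fin.ext h))]
      · intro h; exact absurd (Finset.mem_univ j) h
    have h3 : lam v k₀ = 0 := by
      show val v (k₀ * u v) = 0
      rw [hk₀sum, Finset.sum_mul, val_sum v _ _ (fun j _ => by
        rw [mul_assoc]; exact (reg_algebraMap v _).mul v (hfT j v hv))]
      refine Finset.sum_eq_zero fun j _ => ?_
      rw [mul_assoc, val_mul v (reg_algebraMap v _) (hfT j v hv)]
      have := h1 j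
      show _ * val v (f j * u v) = 0
      rw [show val v (f j * u v) = 0 from this, mul_zero]
    have h4 : v.ord (k₀ * u v) = 0 := by
      rw [v.ord_mul hk₀ (hu0 v), hk₀T v hv, hu]; ring
    exact val_ne_zero (mul_ne_zero hk₀ (hu0 v)) h4 h3
  have hP : (∏ v ∈ T, pol v) ≠ 0 := Finset.prod_ne_zero_iff.2 hpol
  obtain ⟨r, hr⟩ : ∃ r : ℕ, (∏ v ∈ T, pol v).eval (r : Qb) ≠ 0 := by
    by_contra hcon
    push_neg at hcon
    apply hP
    apply Polynomial.eq_zero_of_infinite_isRoot
    refine Set.infinite_of_injective_forall_mem (f := fun r : ℕ => (r : Qb)) Nat.cast_injective ?_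
    intro r
    exact hcon r
  rw [Polynomial.eval_prod, Finset.prod_ne_zero_iff] at hr
  set κ : FF N := ∑ j : Fin m, (r : FF N) ^ (j : ℕ) * f j with hκ
  have hcast : ∀ j : ℕ, ((r : FF N)) ^ j = algebraMap Qb (FF N) ((r : Qb) ^ j) := by
    intro j; rw [map_pow, map_natCast]
  have hlamκ : ∀ v ∈ T, Reg v (κ * u v) ∧ val v (κ * u v) ≠ 0 := by
    intro v hv
    have hregj : ∀ j ∈ (Finset.univ : Finset (Fin m)),
        Reg v ((r : FF N) ^ (j : ℕ) * f j * u v) := fun j _ => by
      rw [mul_assoc, hcast]; exact (reg_algebraMap v _).mul v (hfT j v hv)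
    constructor
    · rw [hκ, Finset.sum_mul]
      exact reg_sum v _ _ hregj
    · have h1 : val v (κ * u v) = (pol v).eval (r : Qb) := by
        rw [hκ, Finset.sum_mul, val_sum v _ _ hregj]
        simp only [pol, Polynomial.eval_finset_sum, Polynomial.eval_monomial]
        refine Finset.sum_congr rfl fun j _ => ?_
        rw [mul_assoc, hcast, val_mul v (reg_algebraMap v _) (hfT j v hv), val_algebraMap, mul_comm]
      rw [h1]
      exact hr v hv
  have hκ0 : κ ≠ 0 := by
    intro h0
    have := (hlamκ v₀ hv₀).2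
    rw [h0, zero_mul, val_zero] at this
    exact this rfl
  refine ⟨κ, hκ0, fun g hg => ?_, fun v hv => ?_⟩
  · rw [hκ, map_sum]
    refine Finset.sum_congr rfl fun j _ => ?_
    rw [map_mul, map_pow, map_natCast, hfix j g hg]
  · obtain ⟨h1, h2⟩ := hlamκ v hv
    have h3 : ¬ Van v (κ * u v) := fun h => h2 ((val_eq_zero_iff v h1).2 h)
    have h4 := ord_eq_zero_of_reg_of_not_van v h1 h3
    rw [v.ord_mul hκ0 (hu0 v), hu] at h4
    linarith

end Fermat.Agent.S43.KUM
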