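import Fermat.Agent.S43.KUM.Abs
import Fermat.Agent.S43.KUM.Move
import Fermat.Agent.S36.Base.DescentL0
import Fermat.Agent.S36.Base.Tame
import Fermat.Agent.S15.W.ModLevel

/-!
# S43 / KUM / Main : (KUM) of the blueprint

`A` over `q`, `I = I_A`, `q ∤ e`.  `EV N A q e fz` : for every `I`-stable divisor `D` of degree `0` on which `fz` is a unit,
`fz(D) = q ^ (e j) * unit of A`.

* `kum_fun`  : `fx ∈ Dm m`, `fz ∈ Dm e` fixed by `I`, `fx h ^ m ∈ Dm (e m)`, `EV fz`  ⟹  `e1 (s h / h) fz = 1` for all `s ∈ I`.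
* `kum_main` : `x' ∈ Kum N (e m)` with `trans x' ∈ Kum N m` fixed by `I`; `z ∈ Kum N e` with a representative `fz` fixed by `I` satisfying `EV`;
               `y ∈ Kum N e` with `incl y = s x' - x'`  ⟹  `e1N y z = 1`.
-/

set_option autoImplicit false
set_option linter.unusedSectionVars false

namespace Fermat.Agent.S43.KUM

open AlgebraicCurve ModularCurve Fermat.Agent.S26 Fermat.Agent.S37.Red Fermat.Agent.S15.W
open Fermat.Agent.ES Fermat.Agent.S36.Base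

/-- **(EV)** for the function `fz`. -/
def EV (N : ℕ) (A : ValuationSubring Qb) (q e : ℕ) (fz : FF N) : Prop :=
  ∀ D : Divisor Qb (FF N), (∀ s ∈ A.inertiaSubgroupIn ℚ, aG N s • D = D) → Divisor.degree D = 0 →
    UnitOn fz D →
    ∃ j : ℤ, evalD fz D * (q : Qb) ^ ((e : ℤ) * j) ∈ A ∧ (evalD fz D * (q : Qb) ^ ((e : ℤ) * j))⁻¹ ∈ A

variable {N : ℕ} [NeZero N]

/-- a function fixed by inertia is fixed by `Gal(ℚ̄ / L0)`. -/
theorem galF_eq_of_fix {A : ValuationSubring Qb} {f : FF N}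
    (hf : ∀ s ∈ A.inertiaSubgroupIn ℚ, galF N s f = f) (g : GQ) (hg : ∀ c ∈ L0 A, g c = c) :
    galF N g f = f := by
  apply Subtype.ext
  rw [coe_galF]
  ext n
  show g ((f : LaurentSeries Qb).coeff n) = _
  apply hg
  rw [mem_L0_iff]
  intro s hs
  have h := congrArg (fun k : FF N => (k : LaurentSeries Qb).coeff n) (hf s hs)
  simpa [coe_galF] using h

theorem kum_fun {q e m : ℕ} (hq : q.Prime) {A : ValuationSubring Qb} (hA : A.LiesOverPrime q)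
    (hqe : ¬ q ∣ e) (hm : m ≠ 0) {fx h fz : FF N} (hfx : IsDm Qb m fx)
    (hfxI : ∀ s ∈ A.inertiaSubgroupIn ℚ, galF N s fx = fx) (hh : h ≠ 0)
    (hprod : IsDm Qb (e * m) (fx * h ^ m)) (hfz : IsDm Qb e fz)
    (hfzI : ∀ s ∈ A.inertiaSubgroupIn ℚ, galF N s fz = fz) (hEV : EV N A q e fz)
    (s : GQ) (hs : s ∈ A.inertiaSubgroupIn ℚ) :
    e1 Qb e (galF N s h / h) fz = 1 := by
  classical
  have he : e ≠ 0 := fun h0 => hqe (h0 ▸ dvd_zero q)
  have hmZ : (m : ℤ) ≠ 0 := Int.natCast_ne_zero.2 hm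
  -- moving
  obtain ⟨κ, hκ0, hκI, hκT⟩ := exists_inv_ord N (L0 A) (finite_ord_ne_zero (Ω := Qb) hfz.1).toFinset
    (fun v => - (v.ord fx / (m : ℤ))) (by
      intro g hg v hv
      rw [Set.Finite.mem_toFinset] at hv ⊢
      refine ⟨?_, ?_⟩
      · show ((aG N g)⁻¹ • v).ord fz ≠ 0
        rw [← ord_galF', galF_eq_of_fix hfzI g hg]
        exact hv
      · show - (((aG N g)⁻¹ • v).ord fx / (m : ℤ)) = _
        rw [← ord_galF', galF_eq_of_fix hfxI g hg])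
  have hκs : ∀ s ∈ A.inertiaSubgroupIn ℚ, galF N s κ = κ := fun s hs =>
    hκI s (fun c hc => mem_L0_iff.1 hc s hs)
  set fx' : FF N := fx * κ ^ m with hfx'
  set h' : FF N := h / κ with hh'
  have hfx'D : IsDm Qb m fx' := hfx.mul (isDm_pow m hκ0)
  have hh'0 : h' ≠ 0 := div_ne_zero hh hκ0
  have hprod' : fx' * h' ^ m = fx * h ^ m := by
    rw [hfx', hh', div_pow]
    field_simp
  set Dx : Divisor Qb (FF N) := Dv Qb m fx' with hDxdef
  have hfx'I : ∀ s ∈ A.inertiaSubgroupIn ℚ, aG N s • fx' = fx' := fun s hs => by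
    rw [aG_smul, hfx', map_mul, map_pow, hfxI s hs, hκs s hs]
  have hDxI : ∀ s ∈ A.inertiaSubgroupIn ℚ, aG N s • Dx = Dx := fun s hs => by
    rw [hDxdef, ← Dv_smul, hfx'I s hs]
  have hDxv : ∀ v : Place Qb (FF N), (m : ℤ) * Dx v = v.ord fx' := fun v => by
    rw [hDxdef, Dv_apply]
    exact Int.mul_ediv_cancel' (hfx'D.2 v)
  have hgD : ∀ v : Place Qb (FF N), (e : ℤ) ∣ v.ord h' + Dx v := by
    intro v
    have h1 := hprod.2 v
    rw [← hprod', v.ord_mul hfx'D.1 (pow_ne_zero _ hh'0), ← zpow_natCast, v.ord_zpow, ← hDxv v,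
      ← mul_add] at h1
    push_cast at h1
    rw [mul_comm (e : ℤ) (m : ℤ)] at h1
    have h2 := (mul_dvd_mul_iff_left hmZ).1 h1
    rwa [add_comm] at h2
  have hu : UnitOn fz Dx := by
    refine ⟨hfz.1, fun v hv => ?_⟩
    by_contra hne
    apply hv
    have h1 := hκT v ((Set.Finite.mem_toFinset _).mpr hne)
    have h2 : v.ord fx' = 0 := by
      rw [hfx', v.ord_mul hfx.1 (pow_ne_zero _ hκ0), ← zpow_natCast, v.ord_zpow, h1]
      have h3 : (m : ℤ) * (v.ord fx / (m : ℤ)) = v.ord fx := Int.mul_ediv_cancel' (hfx.2 v)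
      linarith
    have h4 := hDxv v
    rw [h2] at h4
    exact (mul_eq_zero.1 h4).resolve_left hmZ
  have hfzs : aG N s • fz = fz := hfzI s hs
  obtain ⟨ξ, hξ0, hξ, hform⟩ := formula he (aG N s) hh'0 hfz hfzs (hDxI s hs) hgD hu
  have e1' : aG N s • h' / h' = galF N s h / h := by
    rw [aG_smul, hh', map_div₀, hκs s hs]
    field_simp
  rw [e1'] at hform
  rw [hform]
  -- `ξ` lies in `L0`
  obtain ⟨j, hj1, hj2⟩ := hEV Dx hDxI (degree_Dv hm hfx'D) hu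
  have hq0 : (q : Qb) ≠ 0 := by exact_mod_cast hq.ne_zero
  have hevL : evalD fz Dx ∈ L0 A := by
    rw [mem_L0_iff]
    intro t ht
    have h1 := evalD_smul (aG N t) fz Dx
    rw [hDxI t ht, show aG N t • fz = fz from hfzI t ht, baseAut_arithmeticGalois] at h1
    exact h1.symm
  have hpow : (ξ⁻¹ * (q : Qb) ^ j) ^ e = evalD fz Dx * (q : Qb) ^ ((e : ℤ) * j) := by
    rw [mul_pow, inv_pow, hξ, inv_inv, ← zpow_natCast ((q : Qb) ^ j) e, ← zpow_mul, mul_comm j]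
  have hyL : ξ⁻¹ * (q : Qb) ^ j ∈ L0 A := by
    apply mem_L0_of_pow_mem hq hA hqe
    · rw [hpow]
      exact (L0 A).mul_mem hevL (zpow_mem (natCast_mem (L0 A) q) _)
    · rw [hpow]; exact hj1
    · rw [hpow]; exact hj2
  have hξL : ξ ∈ L0 A := by
    have h1 : ξ = (ξ⁻¹ * (q : Qb) ^ j)⁻¹ * (q : Qb) ^ j := by
      have := zpow_ne_zero j hq0
      field_simp
    rw [h1]
    exact (L0 A).mul_mem ((L0 A).inv_mem hyL) (zpow_mem (natCast_mem (L0 A) q) _)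
  have hsξ : SemilinearAut.baseAut (aG N s) ξ = ξ := by
    rw [baseAut_arithmeticGalois]
    exact mem_L0_iff.1 hξL s hs
  rw [hsξ, div_self hξ0]

/-- the pairing only depends on the `m`-th power of the first argument (`incl` is injective). -/
theorem e1_eq_of_pow {e m : ℕ} (he : e ≠ 0) (hm : m ≠ 0) {f f' c g : FF N} (hf' : IsDm Qb e f')
    (hc : c ≠ 0) (hg : IsDm Qb e g) (h : f ^ m = f' ^ m * c ^ (e * m)) :
    e1 Qb e f g = e1 Qb e f' g := by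
  have hd0 : f' * c ^ e ≠ 0 := mul_ne_zero hf'.1 (pow_ne_zero _ hc)
  set r : FF N := f / (f' * c ^ e) with hr
  have hrm : r ^ m = 1 := by
    rw [hr, div_pow, h, mul_pow, ← pow_mul]
    exact div_self (mul_ne_zero (pow_ne_zero _ hf'.1) (pow_ne_zero _ hc))
  have halg : IsAlgebraic Qb r := by
    refine ⟨Polynomial.X ^ m - 1, Polynomial.X_pow_sub_C_ne_zero (Nat.pos_of_ne_zero hm) 1, ?_⟩
    simp [hrm]
  obtain ⟨c0, hc0⟩ := Fermat.Agent.S24.FF.DegOne.exists_algebraMap_eq_of_isAlgebraic Qb halg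
  have hc00 : c0 ≠ 0 := by
    rintro rfl
    rw [map_zero] at hc0
    rw [← hc0, zero_pow hm] at hrm
    exact zero_ne_one hrm
  have hf : f = algebraMap Qb (FF N) c0 * (f' * c ^ e) := by
    rw [hc0, hr, div_mul_cancel₀ _ hd0]
  rw [hf, e1_mul_left he (isDm_algebraMap e hc00) (hf'.mul (isDm_pow e hc)) hg,
    e1_algebraMap_left he hc00 hg, one_mul, e1_mul_pow_left he hf' hg hc]

/-- **(KUM)**. -/
theorem kum_main {q e m : ℕ} (hq : q.Prime) {A : ValuationSubring Qb} (hA : A.LiesOverPrime q)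
    (hqe : ¬ q ∣ e) (hm : m ≠ 0) (x' : Kum N (e * m))
    (hx : ∀ s ∈ A.inertiaSubgroupIn ℚ,
      galKum N m s (Kum.trans N (dvd_mul_left m e) x') = Kum.trans N (dvd_mul_left m e) x')
    (fz : Dm N e)
    (hfzI : ∀ s ∈ A.inertiaSubgroupIn ℚ,
      galF N s ((fz : (FF N)ˣ) : FF N) = ((fz : (FF N)ˣ) : FF N))
    (hEV : EV N A q e ((fz : (FF N)ˣ) : FF N))
    (s : GQ) (hs : s ∈ A.inertiaSubgroupIn ℚ) (y : Kum N e)
    (hy : Kum.incl N e m y = galKum N (e * m) s x' - x') :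
    e1N y (Kum.mk fz) = 1 := by
  have he : e ≠ 0 := fun h0 => hqe (h0 ▸ dvd_zero q)
  obtain ⟨f', rfl⟩ := Kum.mk_surjective x'
  obtain ⟨fx, hfx, hfxI⟩ := exists_rep_fixed N m hm (A.inertiaSubgroupIn ℚ) _ hx
  rw [Kum.trans_mk] at hfx
  obtain ⟨c, hc⟩ := (Kum.mk_eq_mk_iff _ _).1 hfx
  rw [Dm.coe_incl] at hc
  have e0 : ((f' : (FF N)ˣ) : FF N) = ((fx : (FF N)ˣ) : FF N) * ((c⁻¹ : (FF N)ˣ) : FF N) ^ m := by
    have h1 : (f' : (FF N)ˣ) = (fx : (FF N)ˣ) * c⁻¹ ^ m := by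
      rw [inv_pow, hc, mul_inv_rev, inv_inv, mul_comm (f' : (FF N)ˣ), mul_inv_cancel_left]
    rw [h1, Units.val_mul, Units.val_pow_eq_pow_val]
  obtain ⟨fy, rfl⟩ := Kum.mk_surjective y
  rw [Kum.incl_mk, galKum_mk, sub_eq_add_neg, ← Kum.mk_inv, ← Kum.mk_mul, Kum.mk_eq_mk_iff] at hy
  obtain ⟨d, hd⟩ := hy
  set h : FF N := ((c⁻¹ : (FF N)ˣ) : FF N) with hh
  have hh0 : h ≠ 0 := (c⁻¹ : (FF N)ˣ).ne_zero
  have hsh0 : galF N s h ≠ 0 := by simpa using hh0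
  have hfx0 : ((fx : (FF N)ˣ) : FF N) ≠ 0 := (fx : (FF N)ˣ).ne_zero
  have hd' : ((fy : (FF N)ˣ) : FF N) ^ m = (galF N s h / h) ^ m * ((d : (FF N)ˣ) : FF N) ^ (e * m) := by
    have h1 : (fy : (FF N)ˣ) ^ m = (galU N s (f' : (FF N)ˣ) * (f' : (FF N)ˣ)⁻¹) * d ^ (e * m) := by
      rw [hd, Dm.coe_powHom]
      have h3 : ((⟨galU N s (f' : (FF N)ˣ), galU_mem_Dm s f'.2⟩ * f'⁻¹ : Dm N (e * m)) : (FF N)ˣ)
          = galU N s (f' : (FF N)ˣ) * (f' : (FF N)ˣ)⁻¹ := rfl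
      rw [h3, mul_comm ((fy : (FF N)ˣ) ^ m), mul_inv_cancel_left]
    have h2 := congrArg (fun u : (FF N)ˣ => (u : FF N)) h1
    simp only [Units.val_mul, Units.val_pow_eq_pow_val, coe_galU, Units.val_inv_eq_inv_val] at h2
    rw [h2, e0, map_mul, map_pow, hfxI s hs, div_pow]
    field_simp
  have hprod : IsDm Qb (e * m) (((fx : (FF N)ˣ) : FF N) * h ^ m) := by
    rw [← e0]; exact isDm_coe' f'
  have hDsh : IsDm Qb e (galF N s h / h) := by
    have := isDm_coe' fy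
    refine ⟨div_ne_zero hsh0 hh0, fun v => ?_⟩
    have h1 := congrArg v.ord hd'
    rw [Fermat.Agent.S24.FF.ord_pow, v.ord_mul (pow_ne_zero _ (div_ne_zero hsh0 hh0))
      (pow_ne_zero _ d.ne_zero), Fermat.Agent.S24.FF.ord_pow, Fermat.Agent.S24.FF.ord_pow] at h1
    obtain ⟨t, ht⟩ := this.2 v
    rw [ht] at h1
    have hmZ : (m : ℤ) ≠ 0 := Int.natCast_ne_zero.2 hm
    refine ⟨t - v.ord ((d : (FF N)ˣ) : FF N), ?_⟩
    apply mul_left_cancel₀ hmZ
    push_cast at h1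
    linarith
  rw [e1N_mk he, e1_eq_of_pow he hm hDsh d.ne_zero (isDm_coe' fz) hd']
  exact kum_fun hq hA hqe hm (isDm_coe' fx) hfxI hh0 hprod (isDm_coe' fz) hfzI hEV s hs

end Fermat.Agent.S43.KUM
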