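import Fermat.Agent.S15.W.Interface

/-!
# S43 / KUM / Abs : the formal part of (KUM)

`K` algebraically closed of characteristic `0`, `F / K` a function field, `σ` a semilinear automorphism.
`fz ∈ Dm e` with `σ fz = fz`; `Dx` a `σ`-stable divisor on which `fz` is a unit; `g ≠ 0` with `div g + Dx ∈ e Div`.
Then `σ g / g ∈ Dm e` and

  `e1 (σ g / g) fz = σ ξ / ξ`   for some `ξ` with `ξ ^ e = 1 / fz(Dx)`.
-/

set_option autoImplicit false
set_option linter.unusedSectionVars false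

namespace Fermat.Agent.S43.KUM

open AlgebraicCurve Fermat.Agent.S26 Fermat.Agent.S37.Red Fermat.Agent.S15.W

variable {K F : Type*} [Field K] [Field F] [Algebra K F] [IsAlgClosed K] [CharZero K] [FF1 K F]
variable {e : ℕ}

theorem ord_smul' (σ : SemilinearAut K F) (v : Place K F) (f : F) :
    v.ord (σ • f) = (σ⁻¹ • v).ord f := by
  have h1 := SemilinearAut.ord_smul σ (σ⁻¹ • v) f
  rwa [smul_inv_smul] at h1

theorem divisorOf_smul' (σ : SemilinearAut K F) (f : F) :
    divisorOf (Ω := K) (σ • f) = σ • divisorOf (Ω := K) f := by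
  ext v
  rw [SemilinearAut.divisor_smul_apply, divisorOf_apply, divisorOf_apply, ord_smul']

theorem smul_ne_zero' (σ : SemilinearAut K F) {f : F} (hf : f ≠ 0) : σ • f ≠ 0 := by
  simpa using hf

/-- `σ g / g ∈ Dm e`. -/
theorem isDm_smul_div (σ : SemilinearAut K F) {g : F} (hg : g ≠ 0) {Dx : Divisor K F}
    (hDx : σ • Dx = Dx) (hgD : ∀ v : Place K F, (e : ℤ) ∣ v.ord g + Dx v) :
    IsDm K e (σ • g / g) := by
  refine ⟨div_ne_zero (smul_ne_zero' σ hg) hg, fun v => ?_⟩
  rw [div_eq_mul_inv, v.ord_mul (smul_ne_zero' σ hg) (inv_ne_zero hg), v.ord_inv, ord_smul']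
  have h1 := hgD (σ⁻¹ • v)
  have h2 := hgD v
  have h3 : Dx (σ⁻¹ • v) = Dx v := by
    conv_rhs => rw [← hDx]
    rw [SemilinearAut.divisor_smul_apply]
  rw [h3] at h1
  have := dvd_sub h1 h2
  have e1 : (σ⁻¹ • v).ord g + Dx v - (v.ord g + Dx v) = (σ⁻¹ • v).ord g + -v.ord g := by ring
  rwa [e1] at this

/-- the formula when `g` is already disjoint from `fz`. -/
theorem formula_of_disj (he : e ≠ 0) (σ : SemilinearAut K F) {g fz : F} (hg : g ≠ 0)
    (hfz : IsDm K e fz) (hσ : σ • fz = fz) {Dx : Divisor K F} (hDx : σ • Dx = Dx)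
    (hgD : ∀ v : Place K F, (e : ℤ) ∣ v.ord g + Dx v) (hu : UnitOn fz Dx) (hd : Disj K g fz) :
    ∃ ξ : K, ξ ≠ 0 ∧ ξ ^ e = (evalD fz Dx)⁻¹ ∧
      e1 K e (σ • g / g) fz = SemilinearAut.baseAut σ ξ / ξ := by
  classical
  have he' : (e : ℤ) ≠ 0 := Int.natCast_ne_zero.2 he
  -- the divisor `D' = (div g + Dx) / e`
  let D' : Divisor K F := (divisorOf (Ω := K) g + Dx).mapRange (fun n => n / (e : ℤ)) (by simp)
  have hD'v : ∀ v, D' v = (v.ord g + Dx v) / (e : ℤ) := fun v => by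
    show ((divisorOf (Ω := K) g + Dx).mapRange (fun n => n / (e : ℤ)) (by simp)) v = _
    rw [Finsupp.mapRange_apply, Finsupp.add_apply, divisorOf_apply]
  have hD' : (e : ℤ) • D' = divisorOf (Ω := K) g + Dx := by
    ext v
    rw [Finsupp.smul_apply, hD'v, Finsupp.add_apply, divisorOf_apply, smul_eq_mul]
    exact Int.mul_ediv_cancel' (hgD v)
  set Dz : Divisor K F := Dv K e fz with hDz
  have hDzσ : σ • Dz = Dz := by rw [hDz, ← Dv_smul, hσ]
  -- supports
  have hz0 : ∀ v, v.ord fz ≠ 0 → D' v = 0 := by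
    intro v hv
    have h1 : v.ord g = 0 := (hd v).resolve_right hv
    have h2 : Dx v = 0 := by
      by_contra h
      exact hv (hu.2 v h)
    rw [hD'v, h1, h2, add_zero, Int.zero_ediv]
  have hfzD' : UnitOn fz D' := ⟨hfz.1, fun v hv => by
    by_contra h
    exact hv (hz0 v h)⟩
  have hfzσD' : UnitOn fz (σ • D') := by
    have := hfzD'.smul σ
    rwa [hσ] at this
  have hgDz : UnitOn g Dz := unitOn_Dv hg hd e
  have hσgDz : UnitOn (σ • g) Dz := by
    have := hgDz.smul σ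
    rwa [hDzσ] at this
  -- the pairing
  have hDf : (e : ℤ) • (σ • D' - D') = divisorOf (Ω := K) (σ • g / g) := by
    have h1 : (e : ℤ) • (σ • D') = σ • ((e : ℤ) • D') := by
      ext v
      simp only [Finsupp.smul_apply, SemilinearAut.divisor_smul_apply]
    rw [smul_sub, h1, hD']
    ext v
    rw [Finsupp.sub_apply, SemilinearAut.divisor_smul_apply, Finsupp.add_apply, Finsupp.add_apply,
      divisorOf_apply, divisorOf_apply, divisorOf_apply, div_eq_mul_inv,
      v.ord_mul (smul_ne_zero' σ hg) (inv_ne_zero hg), v.ord_inv, ord_smul']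
    have h3 : Dx (σ⁻¹ • v) = Dx v := by
      conv_rhs => rw [← hDx]
      rw [SemilinearAut.divisor_smul_apply]
    rw [h3]
    ring
  have hdis : ∀ v : Place K F, (σ • D' - D') v = 0 ∨ Dz v = 0 := by
    intro v
    by_cases hv : v.ord fz = 0
    · right
      rw [hDz, Dv_apply, hv, Int.zero_ediv]
    · left
      have hv' : (σ⁻¹ • v).ord fz ≠ 0 := by
        rw [← ord_smul', hσ]; exact hv
      rw [Finsupp.sub_apply, SemilinearAut.divisor_smul_apply, hz0 v hv, hz0 _ hv', sub_zero]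
  have hpair := e1_eq_of_divisors he (div_ne_zero (smul_ne_zero' σ hg) hg) hfz.1 hDf
    (nsmul_Dv hfz) hdis
  set a : K := evalD g Dz with ha
  set b : K := evalD fz D' with hb
  have ha0 : a ≠ 0 := hgDz.evalD_ne_zero
  have hb0 : b ≠ 0 := hfzD'.evalD_ne_zero
  have e1' : evalD (σ • g) Dz = SemilinearAut.baseAut σ a := by
    rw [ha, ← evalD_smul, hDzσ]
  have e2' : evalD fz (σ • D') = SemilinearAut.baseAut σ b := by
    rw [hb, ← evalD_smul, hσ]
  refine ⟨a / b, div_ne_zero ha0 hb0, ?_, ?_⟩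
  · -- `ξ ^ e`
    have h1 : a ^ e = evalD g (divisorOf (Ω := K) fz) := by
      rw [← nsmul_Dv hfz, evalD_zsmul, zpow_natCast]
    have h2 : b ^ e = evalD fz (divisorOf (Ω := K) g) * evalD fz Dx := by
      rw [← evalD_add (unitOn_divisorOf hfz.1 hd.symm) hu, ← hD', evalD_zsmul, zpow_natCast]
    rw [div_pow, h1, h2, weil_reciprocity hg hfz.1 hd]
    have h3 : evalD fz (divisorOf (Ω := K) g) ≠ 0 :=
      (unitOn_divisorOf hfz.1 hd.symm).evalD_ne_zero
    have h4 : evalD fz Dx ≠ 0 := hu.evalD_ne_zero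
    field_simp
  · rw [hpair, evalD_div hσgDz hgDz, evalD_sub hfzσD' hfzD', e1', e2', map_div₀, ← ha, ← hb]
    have h5 : SemilinearAut.baseAut σ b ≠ 0 := by simpa using hb0
    field_simp

/-- **(KUM), formal part.** -/
theorem formula (he : e ≠ 0) (σ : SemilinearAut K F) {g fz : F} (hg : g ≠ 0)
    (hfz : IsDm K e fz) (hσ : σ • fz = fz) {Dx : Divisor K F} (hDx : σ • Dx = Dx)
    (hgD : ∀ v : Place K F, (e : ℤ) ∣ v.ord g + Dx v) (hu : UnitOn fz Dx) :
    ∃ ξ : K, ξ ≠ 0 ∧ ξ ^ e = (evalD fz Dx)⁻¹ ∧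
      e1 K e (σ • g / g) fz = SemilinearAut.baseAut σ ξ / ξ := by
  classical
  have he' : (e : ℤ) ≠ 0 := Int.natCast_ne_zero.2 he
  -- move `g` by an `e`-th power
  obtain ⟨k, hk0, hk⟩ := exists_ord_eq (finite_ord_ne_zero (Ω := K) hfz.1).toFinset
    (fun v => - (v.ord g / (e : ℤ)))
  have hgk : g * k ^ e ≠ 0 := mul_ne_zero hg (pow_ne_zero _ hk0)
  have hord : ∀ v : Place K F, v.ord (g * k ^ e) = v.ord g + e * v.ord k := fun v => by
    rw [v.ord_mul hg (pow_ne_zero _ hk0), ← zpow_natCast, v.ord_zpow]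
  have hd : Disj K (g * k ^ e) fz := by
    intro v
    by_cases hv : v.ord fz = 0
    · exact Or.inr hv
    · left
      have h2 : Dx v = 0 := by
        by_contra h
        exact hv (hu.2 v h)
      have h3 : (e : ℤ) ∣ v.ord g := by
        have := hgD v
        rwa [h2, add_zero] at this
      rw [hord, hk v ((Set.Finite.mem_toFinset _).mpr hv)]
      have h1 : (e : ℤ) * (v.ord g / (e : ℤ)) = v.ord g := Int.mul_ediv_cancel' h3
      linarith
  have hgD' : ∀ v : Place K F, (e : ℤ) ∣ v.ord (g * k ^ e) + Dx v := by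
    intro v
    rw [hord]
    have := dvd_add (hgD v) (Dvd.intro (v.ord k) rfl : (e : ℤ) ∣ e * v.ord k)
    have e1 : v.ord g + Dx v + e * v.ord k = v.ord g + e * v.ord k + Dx v := by ring
    rwa [e1] at this
  obtain ⟨ξ, hξ0, hξ, hform⟩ := formula_of_disj he σ hgk hfz hσ hDx hgD' hu hd
  refine ⟨ξ, hξ0, hξ, ?_⟩
  rw [← hform]
  have hσk : σ • k ≠ 0 := smul_ne_zero' σ hk0
  have e2 : σ • (g * k ^ e) / (g * k ^ e) = (σ • g / g) * (σ • k / k) ^ e := by
    rw [smul_mul', smul_pow', div_pow]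
    field_simp
  rw [e2]
  exact (e1_mul_pow_left he (isDm_smul_div σ hg hDx hgD) hfz (div_ne_zero hσk hk0)).symm

end Fermat.Agent.S43.KUM
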