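import Fermat.Agent.S43.KUM.Main

/-!
# S43 / KUM / Orb : (EV) from a LOCAL statement at each place

`EV_of_local` : `fz` fixed by `I = I_A`.  If for every place `P` with `ord_P fz = 0` there is an `I`-fixed `y ≠ 0` with `ord_P y = 0` and
`(fz y ^ e)(P)` a unit of `A`, then `EV N A q e fz`.

Proof: choose `y_P` depending only on the `I`-orbit of `P`.  `Y = ∏ y_P(P) ^ D(P)` is fixed by `I`, so `Y = q ^ k * unit`
(`L0 / ℚ` is unramified), and `fz(D) Y ^ e = ∏ (fz y_P ^ e)(P) ^ D(P)` is a unit.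
-/

set_option autoImplicit false
set_option linter.unusedSectionVars false

namespace Fermat.Agent.S43.KUM

open AlgebraicCurve ModularCurve Fermat.Agent.S26 Fermat.Agent.S37.Red Fermat.Agent.S15.W
open Fermat.Agent.ES Fermat.Agent.S36.Base

variable {N : ℕ} [NeZero N]

theorem val_eq_one_of_mem {A : ValuationSubring Qb} {x : Qb} (hx0 : x ≠ 0) (h1 : x ∈ A)
    (h2 : x⁻¹ ∈ A) : A.valuation x = 1 := by
  rw [← A.valuation_le_one_iff] at h1 h2
  rw [map_inv₀] at h2
  have h0 : A.valuation x ≠ 0 := (Valuation.ne_zero_iff _).2 hx0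
  refine le_antisymm h1 ?_
  rwa [inv_le_one₀ (zero_lt_iff.2 h0)] at h2

theorem mem_of_val_eq_one {A : ValuationSubring Qb} {x : Qb} (h : A.valuation x = 1) :
    x ∈ A ∧ x⁻¹ ∈ A := by
  constructor
  · rw [← A.valuation_le_one_iff, h]
  · rw [← A.valuation_le_one_iff, map_inv₀, h, inv_one]

/-- the orbit relation of `I_A` on the places. -/
def orbS (N : ℕ) (A : ValuationSubring Qb) : Setoid (Place Qb (FF N)) where
  r P P' := ∃ s ∈ A.inertiaSubgroupIn ℚ, aG N s • P = P'
  iseqv :=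
    { refl := fun P => ⟨1, Subgroup.one_mem _, by
        show arithmeticGalois (modularFunctionFieldFull N) 1 • P = P
        rw [map_one, one_smul]⟩
      symm := by
        rintro P P' ⟨s, hs, rfl⟩
        refine ⟨s⁻¹, Subgroup.inv_mem _ hs, ?_⟩
        show arithmeticGalois (modularFunctionFieldFull N) s⁻¹ •
          (arithmeticGalois (modularFunctionFieldFull N) s • P) = P
        rw [map_inv, inv_smul_smul]
      trans := by
        rintro P P' P'' ⟨s, hs, rfl⟩ ⟨t, ht, rfl⟩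
        refine ⟨t * s, Subgroup.mul_mem _ ht hs, ?_⟩
        show arithmeticGalois (modularFunctionFieldFull N) (t * s) • P = _
        rw [map_mul, mul_smul] }

theorem EV_of_local {q e : ℕ} (hq : q.Prime) {A : ValuationSubring Qb} (hA : A.LiesOverPrime q)
    {fz : FF N} (hfzI : ∀ s ∈ A.inertiaSubgroupIn ℚ, galF N s fz = fz)
    (hloc : ∀ P : Place Qb (FF N), P.ord fz = 0 → ∃ y : FF N, y ≠ 0 ∧
      (∀ s ∈ A.inertiaSubgroupIn ℚ, galF N s y = y) ∧ P.ord y = 0 ∧
      val P (fz * y ^ e) ∈ A ∧ (val P (fz * y ^ e))⁻¹ ∈ A) :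
    EV N A q e fz := by
  classical
  intro D hD _ hu
  have hfz0 : fz ≠ 0 := hu.1
  -- representatives of the orbits
  let rep : Place Qb (FF N) → Place Qb (FF N) := fun P => (Quotient.mk (orbS N A) P).out
  have hrep : ∀ P, ∃ s ∈ A.inertiaSubgroupIn ℚ, aG N s • rep P = P := fun P =>
    Quotient.exact (Quotient.out_eq (Quotient.mk (orbS N A) P))
  have hrep' : ∀ s ∈ A.inertiaSubgroupIn ℚ, ∀ P, rep (aG N s • P) = rep P := by
    intro s hs P
    have : Quotient.mk (orbS N A) (aG N s • P) = Quotient.mk (orbS N A) P :=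
      Quotient.sound ((orbS N A).symm ⟨s, hs, rfl⟩)
    show (Quotient.mk (orbS N A) (aG N s • P)).out = _
    rw [this]
  let yy : Place Qb (FF N) → FF N := fun P =>
    if h : (rep P).ord fz = 0 then (hloc (rep P) h).choose else 1
  have hyy' : ∀ s ∈ A.inertiaSubgroupIn ℚ, ∀ P, yy (aG N s • P) = yy P := by
    intro s hs P
    show (if h : (rep (aG N s • P)).ord fz = 0 then (hloc (rep (aG N s • P)) h).choose else 1) = _
    rw [hrep' s hs P]
  have hyy : ∀ P : Place Qb (FF N), P.ord fz = 0 → yy P ≠ 0 ∧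
      (∀ s ∈ A.inertiaSubgroupIn ℚ, galF N s (yy P) = yy P) ∧ P.ord (yy P) = 0 ∧
      A.valuation (val P (fz * yy P ^ e)) = 1 := by
    intro P hP
    obtain ⟨s, hs, hsP⟩ := hrep P
    have h0 : (rep P).ord fz = 0 := by
      have h1 := SemilinearAut.ord_smul (aG N s) (rep P) fz
      rw [hsP, show aG N s • fz = fz from hfzI s hs] at h1
      rw [← h1, hP]
    have hy : yy P = (hloc (rep P) h0).choose := dif_pos h0
    obtain ⟨a1, a2, a3, a4, a5⟩ := (hloc (rep P) h0).choose_spec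
    rw [← hy] at a1 a2 a3 a4 a5
    have hordy : P.ord (yy P) = 0 := by
      have h1 := SemilinearAut.ord_smul (aG N s) (rep P) (yy P)
      rw [hsP, show aG N s • yy P = yy P from a2 s hs] at h1
      rw [h1, a3]
    refine ⟨a1, a2, hordy, ?_⟩
    have h2 := val_smul (rep P) (aG N s) (fz * yy P ^ e)
    have h3 : aG N s • (fz * yy P ^ e) = fz * yy P ^ e := by
      rw [aG_smul, map_mul, map_pow, hfzI s hs, a2 s hs]
    rw [hsP, h3, baseAut_arithmeticGalois] at h2
    rw [h2]
    have h4 : (rep P).ord (fz * yy P ^ e) = 0 := by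
      rw [(rep P).ord_mul hfz0 (pow_ne_zero _ a1), Fermat.Agent.S24.FF.ord_pow, h0, a3]; simp
    have h5 : val (rep P) (fz * yy P ^ e) ≠ 0 :=
      val_ne_zero (mul_ne_zero hfz0 (pow_ne_zero _ a1)) h4
    show A.valuation (s (val (rep P) (fz * yy P ^ e))) = 1
    rw [Fermat.Agent.S13.valuation_apply_of_mem_inertia hs]
    exact val_eq_one_of_mem h5 a4 a5
  have hsupp : ∀ P ∈ D.support, P.ord fz = 0 := fun P hP => hu.2 P (Finsupp.mem_support_iff.1 hP)
  set Y : Qb := D.prod fun P n => val P (yy P) ^ n with hY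
  set U : Qb := D.prod fun P n => val P (fz * yy P ^ e) ^ n with hU
  have hGne : ∀ P ∈ D.support, val P (yy P) ≠ 0 := fun P hP =>
    val_ne_zero (hyy P (hsupp P hP)).1 (hyy P (hsupp P hP)).2.2.1
  have hY0 : Y ≠ 0 := by
    rw [hY, Finsupp.prod, Finset.prod_ne_zero_iff]
    exact fun P hP => zpow_ne_zero _ (hGne P hP)
  have hUval : A.valuation U = 1 := by
    rw [hU, Finsupp.prod, map_prod]
    refine Finset.prod_eq_one fun P hP => ?_
    rw [map_zpow₀, (hyy P (hsupp P hP)).2.2.2, one_zpow]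
  have hUY : U = evalD fz D * Y ^ e := by
    rw [hU, hY, evalD, Finsupp.prod, Finsupp.prod, Finsupp.prod, ← Finset.prod_pow,
      ← Finset.prod_mul_distrib]
    refine Finset.prod_congr rfl fun P hP => ?_
    have h1 : Reg P fz := (reg_iff_ord P).2 (hsupp P hP).ge
    have h2 : Reg P (yy P) := (reg_iff_ord P).2 (hyy P (hsupp P hP)).2.2.1.ge
    rw [val_mul P h1 (h2.pow P e), val_pow P h2, mul_zpow, ← zpow_natCast (val P (yy P) ^ D P) e,
      ← zpow_natCast (val P (yy P)) e, ← zpow_mul, ← zpow_mul, mul_comm (D P)]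
  have hYL : Y ∈ L0 A := by
    rw [mem_L0_iff]
    intro s hs
    have h1 : Y = (aG N s • D).prod fun P n => val P (yy P) ^ n := by rw [hD s hs]
    rw [SemilinearAut.divisor_smul_def,
      Finsupp.prod_mapDomain_index_inj (MulAction.injective (aG N s))] at h1
    have h0 : s Y = D.prod fun a b => val (aG N s • a) (yy (aG N s • a)) ^ b := by
      rw [hY, Finsupp.prod, Finsupp.prod, map_prod]
      refine Finset.prod_congr rfl fun P hP => ?_
      rw [map_zpow₀]
      congr 1
      have h2 := val_smul P (aG N s) (yy P)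
      rw [show aG N s • yy P = yy P from (hyy P (hsupp P hP)).2.1 s hs,
        baseAut_arithmeticGalois] at h2
      rw [hyy' s hs P, h2]
      rfl
    rw [h0, ← h1]
  obtain ⟨k, hk1, hk2⟩ := exists_zpow_mul_mem hq hA hYL hY0
  have hq0 : (q : Qb) ≠ 0 := by exact_mod_cast hq.ne_zero
  have hV : A.valuation (Y * (q : Qb) ^ k) = 1 :=
    val_eq_one_of_mem (mul_ne_zero hY0 (zpow_ne_zero _ hq0)) hk1 hk2
  refine ⟨-k, mem_of_val_eq_one ?_⟩
  have h3 : evalD fz D * (q : Qb) ^ ((e : ℤ) * -k) = U * ((Y * (q : Qb) ^ k) ^ e)⁻¹ := by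
    rw [hUY, mul_pow, ← zpow_natCast ((q : Qb) ^ k) e, ← zpow_mul, mul_neg, zpow_neg, mul_comm k]
    have := pow_ne_zero e hY0
    have := zpow_ne_zero ((e : ℤ) * k) hq0
    field_simp
  rw [h3, map_mul, map_inv₀, map_pow, hV, hUval, one_pow, inv_one, mul_one]

end Fermat.Agent.S43.KUM
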